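/-
Program R, package R8 (helper2): assembly of S20.
Theorem A (`RR.thmA_canonical`) for `k = ℂ`, `B = B_N := WH0 (Γ₀(N))`, with the finite prime
counts of the dictionary (`Analytic/Gamma0Dict.lean`) and the constellation count
(`Genus.exists_genus_cyc`) plugged in, gives a space `W` of "holomorphic differentials" with
`dim W = genusFormula N`.  Remaining inputs, taken as HYPOTHESES:
* `hinf`   : the number of primes of `Binf ℂ B_N` is `cuspCount N`   (chart at infinity);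
* `hconst` : `B_N ∩ Binf = ℂ`;
* `hR7`    : `dim S₂(Γ₀(N)) = dim W` (or just `dim W ≤ dim S₂`, the other inequality being free
  by Eichler–Shimura injectivity, `ES.finrank_cuspForm_le`).
-/
import Mathlib
import Fermat.Agent.ProgramR.RR.ThmAFull
import Fermat.Agent.ProgramR.Analytic.Gamma0Dict
import Fermat.Agent.ProgramR.ES.Assembly

set_option autoImplicit false

noncomputable section

namespace Fermat.Agent.ProgramR.S20

open Polynomial Module CongruenceSubgroup IsDedekindDomain UpperHalfPlane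
open Fermat.Agent.ProgramR.Alg
open scoped MatrixGroups

attribute [local instance] Genus.cosetFintype

variable (N : ℕ) [NeZero N]

/-- The finite part of the Riemann–Hurwitz sum for `B_N`. -/
theorem finsum_fibre_defect :
    ∑ᶠ c : ℂ, ((finrank ℂ[X] (WH0 (Gamma0 N)) : ℤ) -
        Nat.card {P : HeightOneSpectrum (WH0 (Gamma0 N)) //
          algebraMap ℂ[X] (WH0 (Gamma0 N)) (X - C c) ∈ P.asIdeal}) =
      ((ModularCurve.dedekindPsi N : ℤ) - Genus.cyc (Genus.sigmaN N * Genus.tauN N))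
        + ((ModularCurve.dedekindPsi N : ℤ) - Genus.cyc (Genus.sigmaN N)) := by
  classical
  rw [WH0.finrank_Gamma0 N]
  have hne : (0 : ℂ) ≠ 1728 := by norm_num
  rw [finsum_eq_sum_of_support_subset (s := ({0, 1728} : Finset ℂ))]
  · rw [Finset.sum_pair hne, card_primes_over_zero N, card_primes_over_1728 N]
  · intro c hc
    rw [Function.mem_support] at hc
    by_contra hcs
    rw [Finset.coe_insert, Finset.coe_singleton, Set.mem_insert_iff, Set.mem_singleton_iff,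
      not_or] at hcs
    apply hc
    rw [card_primes_over_generic N c hcs.1 hcs.2, sub_self]

/-- **Theorem A for `B_N`**: the space `W` of holomorphic differentials has dimension
`genusFormula N`. -/
theorem exists_holDiff_finrank
    (hinf : Nat.card (HeightOneSpectrum (Binf ℂ (WH0 (Gamma0 N)))) = ModularCurve.cuspCount N)
    (hconst : ∀ h : FF ℂ (WH0 (Gamma0 N)),
      h ∈ Set.range (algebraMap (WH0 (Gamma0 N)) (FF ℂ (WH0 (Gamma0 N)))) →
      h ∈ Set.range (algebraMap (Binf ℂ (WH0 (Gamma0 N))) (FF ℂ (WH0 (Gamma0 N)))) →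
      h ∈ Set.range (algebraMap ℂ (FF ℂ (WH0 (Gamma0 N))))) :
    ∃ W : Submodule ℂ (FF ℂ (WH0 (Gamma0 N))),
      (∀ h, h ∈ W ↔ FinCond ℂ (FF ℂ (WH0 (Gamma0 N))) (WH0 (Gamma0 N)) h ∧
        InfCond ℂ (FF ℂ (WH0 (Gamma0 N))) (Binf ℂ (WH0 (Gamma0 N))) h) ∧
      ((finrank ℂ W : ℕ) : ℚ) = ModularCurve.genusFormula N := by
  classical
  obtain ⟨W, hW, hdim⟩ := RR.thmA_canonical ℂ (WH0 (Gamma0 N)) hconst
  refine ⟨W, hW, ?_⟩
  rw [finsum_fibre_defect N, hinf, WH0.finrank_Gamma0 N] at hdim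
  obtain ⟨g, hg, hgq⟩ := Genus.exists_genus_cyc N
  rw [Genus.card_coset N, Genus.cyc_tauN N] at hg
  rw [← hgq]
  have : (finrank ℂ W : ℤ) = g := by
    have hg' : (Genus.cyc (Genus.sigmaN N) : ℤ) + ModularCurve.cuspCount N
        + Genus.cyc (Genus.sigmaN N * Genus.tauN N) + 2 * g = ModularCurve.dedekindPsi N + 2 := by
      exact_mod_cast hg
    linarith
  exact_mod_cast this

/-- **R8**: S20 from the chart at infinity (`hinf`, `hconst`) and R7 (`hR7`). -/
theorem finrank_cuspForm_eq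
    (hinf : Nat.card (HeightOneSpectrum (Binf ℂ (WH0 (Gamma0 N)))) = ModularCurve.cuspCount N)
    (hconst : ∀ h : FF ℂ (WH0 (Gamma0 N)),
      h ∈ Set.range (algebraMap (WH0 (Gamma0 N)) (FF ℂ (WH0 (Gamma0 N)))) →
      h ∈ Set.range (algebraMap (Binf ℂ (WH0 (Gamma0 N))) (FF ℂ (WH0 (Gamma0 N)))) →
      h ∈ Set.range (algebraMap ℂ (FF ℂ (WH0 (Gamma0 N)))))
    (hR7 : ∀ W : Submodule ℂ (FF ℂ (WH0 (Gamma0 N))),
      (∀ h, h ∈ W ↔ FinCond ℂ (FF ℂ (WH0 (Gamma0 N))) (WH0 (Gamma0 N)) h ∧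
        InfCond ℂ (FF ℂ (WH0 (Gamma0 N))) (Binf ℂ (WH0 (Gamma0 N))) h) →
      finrank ℂ (CuspForm (Gamma0 N) 2) = finrank ℂ W) :
    (finrank ℂ (CuspForm (Gamma0 N) 2) : ℚ) = ModularCurve.genusFormula N := by
  obtain ⟨W, hW, hdim⟩ := exists_holDiff_finrank N hinf hconst
  rw [hR7 W hW]
  exact hdim

/-- **R8, one-sided form**: it suffices to embed `W` into `S₂(Γ₀(N))`; the inequality
`dim S₂ ≤ genusFormula N` is `ES.finrank_cuspForm_le`. -/
theorem finrank_cuspForm_eq_of_le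
    (hinf : Nat.card (HeightOneSpectrum (Binf ℂ (WH0 (Gamma0 N)))) = ModularCurve.cuspCount N)
    (hconst : ∀ h : FF ℂ (WH0 (Gamma0 N)),
      h ∈ Set.range (algebraMap (WH0 (Gamma0 N)) (FF ℂ (WH0 (Gamma0 N)))) →
      h ∈ Set.range (algebraMap (Binf ℂ (WH0 (Gamma0 N))) (FF ℂ (WH0 (Gamma0 N)))) →
      h ∈ Set.range (algebraMap ℂ (FF ℂ (WH0 (Gamma0 N)))))
    (hR7 : ∀ W : Submodule ℂ (FF ℂ (WH0 (Gamma0 N))),
      (∀ h, h ∈ W ↔ FinCond ℂ (FF ℂ (WH0 (Gamma0 N))) (WH0 (Gamma0 N)) h ∧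
        InfCond ℂ (FF ℂ (WH0 (Gamma0 N))) (Binf ℂ (WH0 (Gamma0 N))) h) →
      finrank ℂ W ≤ finrank ℂ (CuspForm (Gamma0 N) 2)) :
    (finrank ℂ (CuspForm (Gamma0 N) 2) : ℚ) = ModularCurve.genusFormula N := by
  obtain ⟨W, hW, hdim⟩ := exists_holDiff_finrank N hinf hconst
  refine ES.finrank_cuspForm_eq_of_le N (finrank ℂ W) hdim (hR7 W hW)

end Fermat.Agent.ProgramR.S20
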