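/-
Program R (helper3): final glue for S20.  Discharges the hypotheses of `S20.finrank_cuspForm_eq`
(helper2's R8) with the chart at infinity (helper4's `CuspLocal/InftyDict`), the finite dictionary
(helper1's `Analytic/Gamma0Dict`) and R7 (`Forms/R7`).
-/
import Fermat.Agent.ProgramR.S20.Assembly
import Fermat.Agent.ProgramR.Forms.R7
import Fermat.Agent.ProgramR.CuspLocal.InftyDict
import Fermat.Agent.ProgramR.CuspLocal.Regular
import Fermat.Agent.ProgramR.Analytic.Gamma0Dict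
import Fermat.Agent.ProgramR.Analytic.JNWH0

set_option autoImplicit false
set_option linter.unusedSectionVars false

noncomputable section

namespace Fermat.Agent.ProgramR.S20

open Polynomial Module CongruenceSubgroup IsDedekindDomain UpperHalfPlane
open Fermat.Agent.ProgramR.Alg Fermat.Agent.ProgramR.CuspLocal Fermat.Agent.ProgramR.Forms
open scoped MatrixGroups

attribute [local instance] Genus.cosetFintype

variable (N : ℕ) [NeZero N]

lemma hj_Gamma0 : algebraMap ℂ[X] ↥(WH0 (Gamma0 N)) X = jWH0 N := by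
  rw [WH0.algebraMap_poly, aeval_X]
  rfl

lemma hrank_Gamma0 :
    finrank ℂ[X] ↥(WH0 (Gamma0 N)) = Nat.card (SL(2, ℤ) ⧸ Gamma0 N) := by
  rw [WH0.finrank_Gamma0 N, card_quotient_Gamma0]

lemma hsep_Gamma0 (g g' : SL(2, ℤ)) (h : cuspExp N g = cuspExp N g') :
    (QuotientGroup.mk g : SL(2, ℤ) ⧸ Gamma0 N) = QuotientGroup.mk g' := by
  rw [QuotientGroup.eq, ← slComp_inv_jN_eq_iff]
  have h1 := congrArg (fun φ => φ (jNWH0 N)) h
  simp only [cuspExp_apply] at h1
  -- injectivity of the Laurent expansion on the ring of functions meromorphic at infinity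
  have h2 : translateHom N g (jNWH0 N) = translateHom N g' (jNWH0 N) := by
    apply QExp.laurentExpHom_injective (N : ℝ) (natCast_pos_real N)
    exact h1
  apply Hol.ext
  intro z
  have h3 := congrFun (congrArg Subtype.val h2) z
  exact h3


/-- the number of primes of the chart at infinity. -/
theorem hinf_Gamma0 :
    Nat.card (HeightOneSpectrum (Binf ℂ ↥(WH0 (Gamma0 N)))) = ModularCurve.cuspCount N :=
  card_heightOneSpectrum_Binf N (hj_Gamma0 N) (hsep_Gamma0 N) (hrank_Gamma0 N)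

/-- `B_N ∩ B_∞ = ℂ`. -/
theorem hconst_Gamma0 (h : FF ℂ ↥(WH0 (Gamma0 N)))
    (h1 : h ∈ Set.range (algebraMap ↥(WH0 (Gamma0 N)) (FF ℂ ↥(WH0 (Gamma0 N)))))
    (h2 : h ∈ Set.range (algebraMap (Binf ℂ ↥(WH0 (Gamma0 N))) (FF ℂ ↥(WH0 (Gamma0 N))))) :
    h ∈ Set.range (algebraMap ℂ (FF ℂ ↥(WH0 (Gamma0 N)))) := by
  obtain ⟨a, rfl⟩ := h1
  obtain ⟨y, hy⟩ := h2
  by_cases ha : a = 0
  · exact ⟨0, by rw [ha, map_zero, map_zero]⟩
  have hy0 : y ≠ 0 := by
    rintro rfl
    rw [map_zero] at hy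
    exact ha ((IsFractionRing.injective ↥(WH0 (Gamma0 N)) (FF ℂ ↥(WH0 (Gamma0 N))))
      (by rw [← hy, map_zero]))
  have hreg : ∀ g : SL(2, ℤ), 0 ≤ (cuspExp N g a).order := by
    intro g
    obtain ⟨Q, s, hs, hQ⟩ := exists_prime_forall_order_eq N (hj_Gamma0 N) (hsep_Gamma0 N)
      (hrank_Gamma0 N) g
    rw [hQ a ha, ← hy]
    exact mul_nonneg (by positivity) (ordV_algebraMap_nonneg Q hy0)
  obtain ⟨c, hc⟩ := eq_const_of_forall_order_nonneg N a hreg
  refine ⟨c, ?_⟩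
  rw [hc, ← IsScalarTower.algebraMap_apply]

theorem dFin_Gamma0 : DFin N := fun P => by
  obtain ⟨z, s, hs, _, h⟩ := exists_point_ordAt_pow N P
  exact ⟨z, s, hs, h⟩

theorem dFin'_Gamma0 : DFin' N := fun z => by
  obtain ⟨P, s, hs, _, h⟩ := exists_prime_ordAt_pow N z
  exact ⟨P, s, hs, h⟩

/-- from the one-element shape of the dictionary at infinity to the two-element shape. -/
lemma infClause_of_forall {Q : HeightOneSpectrum (Binf ℂ ↥(WH0 (Gamma0 N)))} {g : SL(2, ℤ)} {s : ℕ}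
    (h : ∀ a : ↥(WH0 (Gamma0 N)), a ≠ 0 → (cuspExp N g a).order =
      (s : ℤ) * ordV Q (algebraMap ↥(WH0 (Gamma0 N)) (FF ℂ ↥(WH0 (Gamma0 N))) a)) :
    InfClause N Q g s := by
  intro a b ha hb
  have hιa := algebraMap_FN_ne_zero N ha
  have hιb := algebraMap_FN_ne_zero N hb
  rw [div_eq_mul_inv, ordV_mul Q hιa (inv_ne_zero hιb), ordV_inv, h a ha, h b hb]
  ring

theorem dInf_Gamma0 : DInf N := fun Q => by
  obtain ⟨g, s, hs, h⟩ := exists_coset_forall_order_eq N (hj_Gamma0 N) (hsep_Gamma0 N)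
    (hrank_Gamma0 N) Q
  exact ⟨g, s, hs, infClause_of_forall N h⟩

theorem dInf'_Gamma0 : DInf' N := fun g => by
  obtain ⟨Q, s, hs, h⟩ := exists_prime_forall_order_eq N (hj_Gamma0 N) (hsep_Gamma0 N)
    (hrank_Gamma0 N) g
  exact ⟨Q, s, hs, infClause_of_forall N h⟩

/-- **S20**: the dimension of `S₂(Γ₀(N))` is the genus formula. -/
theorem finrank_cuspForm_gamma0 :
    (finrank ℂ (CuspForm (Gamma0 N) 2) : ℚ) = ModularCurve.genusFormula N :=
  finrank_cuspForm_eq N (hinf_Gamma0 N) (hconst_Gamma0 N) fun W hW =>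
    finrank_cuspForm_eq_finrank N (dFin_Gamma0 N) (dFin'_Gamma0 N) (dInf_Gamma0 N)
      (dInf'_Gamma0 N) W hW

end Fermat.Agent.ProgramR.S20
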